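import Fermat.Statements.S18

/-!
# S18 glue: reduction of the frozen statement S18 to two Props

* `StmtClaimK` : "Claim K" in ratio form (to be delivered by team KL);
* `StmtConstK` : a function of `F_k` without zeros and poles is constant.
-/

set_option autoImplicit false
set_option synthInstance.maxHeartbeats 400000

noncomputable section

open HahnSeries IntermediateField AlgebraicCurve ModularCurve

namespace Fermat.Agent.S18G

/-- `ℚ̄`. -/
abbrev Qb : Type := AlgebraicClosure ℚ

/-- the residue field of the valuation subring `A`. -/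
abbrev kA (A : ValuationSubring Qb) : Type := IsLocalRing.ResidueField A

/-- the function field in characteristic zero. -/
abbrev FL (N : ℕ) : IntermediateField Qb (LaurentSeries Qb) := modularFunctionFieldBar N

/-- the function field over the residue field. -/
abbrev Fk (A : ValuationSubring Qb) (N : ℕ) : IntermediateField (kA A) (LaurentSeries (kA A)) :=
  modularFunctionFieldFullC (kA A) N

/-- **Claim K**, ratio form. -/
def StmtClaimK (N : ℕ) (ℓ : ℕ) (A : ValuationSubring Qb) : Prop :=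
  ∀ m : ℕ, ¬ ℓ ∣ m → ∀ (y₁ y₂ : LaurentSeries A)
    (h₁ : coeffMap A.subtype y₁ ∈ FL N) (h₂ : coeffMap A.subtype y₂ ∈ FL N),
    coeffMap (IsLocalRing.residue A) y₁ = coeffMap (IsLocalRing.residue A) y₂ →
    coeffMap (IsLocalRing.residue A) y₁ ≠ 0 →
    coeffMap (IsLocalRing.residue A) y₁ ∈ Fk A N →
    (∀ P : Place Qb (FL N), (m : ℤ) ∣
      P.ord ((⟨coeffMap A.subtype y₁, h₁⟩ : FL N) / (⟨coeffMap A.subtype y₂, h₂⟩ : FL N))) →
    ∃ h : FL N, h ^ m =
      (⟨coeffMap A.subtype y₁, h₁⟩ : FL N) / (⟨coeffMap A.subtype y₂, h₂⟩ : FL N)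

/-- A function of `F_k` without zeros and poles is constant. -/
def StmtConstK (N : ℕ) (A : ValuationSubring Qb) : Prop :=
  ∀ x : Fk A N, x ≠ 0 → (∀ Q : Place (kA A) (Fk A N), Q.ord x = 0) →
    ∃ c : kA A, x = algebraMap (kA A) (Fk A N) c

/-- An integral element: a Laurent series over `A` lying in `F_L`, whose reduction is a nonzero
element of `F_k`. -/
structure IntEl (A : ValuationSubring Qb) (N : ℕ) where
  y : LaurentSeries A
  memL : coeffMap A.subtype y ∈ FL N
  memk : coeffMap (IsLocalRing.residue A) y ∈ Fk A N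
  ne : coeffMap (IsLocalRing.residue A) y ≠ 0

namespace IntEl

variable {A : ValuationSubring Qb} {N : ℕ}

/-- the element of `F_L`. -/
def up (e : IntEl A N) : FL N := ⟨coeffMap A.subtype e.y, e.memL⟩

/-- the reduction, an element of `F_k`. -/
def down (e : IntEl A N) : Fk A N := ⟨coeffMap (IsLocalRing.residue A) e.y, e.memk⟩

theorem down_ne (e : IntEl A N) : e.down ≠ 0 := fun h => e.ne (congrArg Subtype.val h)

theorem y_ne (e : IntEl A N) : e.y ≠ 0 := fun h => e.ne (by rw [h, map_zero])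

theorem coeffMap_subtype_injective :
    Function.Injective (coeffMap A.subtype : LaurentSeries A → LaurentSeries Qb) := by
  intro a b hab
  ext n
  have := congrArg (fun z => z.coeff n) hab
  simpa using this

theorem up_ne (e : IntEl A N) : e.up ≠ 0 := fun h => e.y_ne (by
  have h' : coeffMap A.subtype e.y = 0 := congrArg Subtype.val h
  exact coeffMap_subtype_injective (by rw [h', map_zero]))

/-- the unit element. -/
def one : IntEl A N where
  y := 1
  memL := by rw [map_one]; exact one_mem _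
  memk := by rw [map_one]; exact one_mem _
  ne := by rw [map_one]; exact one_ne_zero

@[simp] theorem up_one : (one : IntEl A N).up = 1 := Subtype.ext (map_one _)
@[simp] theorem down_one : (one : IntEl A N).down = 1 := Subtype.ext (map_one _)

/-- product. -/
def mul (e f : IntEl A N) : IntEl A N where
  y := e.y * f.y
  memL := by rw [map_mul]; exact mul_mem e.memL f.memL
  memk := by rw [map_mul]; exact mul_mem e.memk f.memk
  ne := by rw [map_mul]; exact mul_ne_zero e.ne f.ne

@[simp] theorem up_mul (e f : IntEl A N) : (e.mul f).up = e.up * f.up := Subtype.ext (map_mul _ _ _)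
@[simp] theorem down_mul (e f : IntEl A N) : (e.mul f).down = e.down * f.down :=
  Subtype.ext (map_mul _ _ _)

/-- power. -/
def pow (e : IntEl A N) (n : ℕ) : IntEl A N where
  y := e.y ^ n
  memL := by rw [map_pow]; exact pow_mem e.memL n
  memk := by rw [map_pow]; exact pow_mem e.memk n
  ne := by rw [map_pow]; exact pow_ne_zero n e.ne

@[simp] theorem up_pow (e : IntEl A N) (n : ℕ) : (e.pow n).up = e.up ^ n :=
  Subtype.ext (map_pow _ _ _)
@[simp] theorem down_pow (e : IntEl A N) (n : ℕ) : (e.pow n).down = e.down ^ n :=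
  Subtype.ext (map_pow _ _ _)

end IntEl

variable {A : ValuationSubring Qb} {N : ℕ}

/-- Elements of the closure of the integral principal divisors are differences of divisors of
integral elements. -/
theorem exists_intEl_of_mem_closure {D : Divisor Qb (FL N)}
    (hD : D ∈ AddSubgroup.closure (integralPrincipalDivisors A (IsLocalRing.residue A) N)) :
    ∃ (e₁ e₂ : IntEl A N) (E₁ E₂ : Divisor Qb (FL N)),
      (∀ P, E₁ P = P.ord e₁.up) ∧ (∀ P, E₂ P = P.ord e₂.up) ∧ D = E₁ - E₂ := by
  induction hD using AddSubgroup.closure_induction with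
  | mem E hE =>
    obtain ⟨y, hy, hyk, hne, hDy⟩ := hE
    exact ⟨⟨y, hy, hyk, hne⟩, IntEl.one, E, 0, hDy, fun P => by simp, by simp⟩
  | zero => exact ⟨IntEl.one, IntEl.one, 0, 0, fun P => by simp, fun P => by simp, by simp⟩
  | add E E' _ _ hE hE' =>
    obtain ⟨e₁, e₂, E₁, E₂, h₁, h₂, rfl⟩ := hE
    obtain ⟨e₁', e₂', E₁', E₂', h₁', h₂', rfl⟩ := hE'
    refine ⟨e₁.mul e₁', e₂.mul e₂', E₁ + E₁', E₂ + E₂', fun P => ?_, fun P => ?_, by abel⟩
    · rw [IntEl.up_mul, Place.ord_mul P e₁.up_ne e₁'.up_ne, Finsupp.add_apply, h₁, h₁']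
    · rw [IntEl.up_mul, Place.ord_mul P e₂.up_ne e₂'.up_ne, Finsupp.add_apply, h₂, h₂']
  | neg E _ hE =>
    obtain ⟨e₁, e₂, E₁, E₂, h₁, h₂, rfl⟩ := hE
    exact ⟨e₂, e₁, E₂, E₁, h₂, h₁, by abel⟩

/-- (LIFT) for the polynomial ring. -/
theorem exists_lift_of_mem_adjoin [NeZero N] {x : LaurentSeries (kA A)}
    (hx : x ∈ Algebra.adjoin (kA A) (divisorExpansionsC (kA A) N)) :
    ∃ y : LaurentSeries A, coeffMap A.subtype y ∈ FL N ∧
      coeffMap (IsLocalRing.residue A) y = x := by
  induction hx using Algebra.adjoin_induction with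
  | mem x hx =>
    obtain ⟨d, hd, hdN, rfl⟩ := hx
    refine ⟨qExpand A d (jqModC A), ?_, ?_⟩
    · rw [coeffMap_qExpand, coeffMap_jqModC]
      have h := coeffEmb_mem_laurentBaseChange Qb (jqd_mem_full N hdN)
      rwa [coeffEmb, coeffMap_qExpand, ← jqModC_rat, coeffMap_jqModC] at h
    · rw [coeffMap_qExpand, coeffMap_jqModC]
  | algebraMap c =>
    obtain ⟨a, rfl⟩ := IsLocalRing.residue_surjective c
    refine ⟨HahnSeries.single 0 a, ?_, ?_⟩
    · rw [coeffMap_single, ← algebraMap_laurentSeries_eq_single]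
      exact (FL N).algebraMap_mem _
    · rw [coeffMap_single, ← algebraMap_laurentSeries_eq_single]
  | add x y _ _ hx hy =>
    obtain ⟨a, ha, rfl⟩ := hx
    obtain ⟨b, hb, rfl⟩ := hy
    exact ⟨a + b, by rw [map_add]; exact add_mem ha hb, map_add _ _ _⟩
  | mul x y _ _ hx hy =>
    obtain ⟨a, ha, rfl⟩ := hx
    obtain ⟨b, hb, rfl⟩ := hy
    exact ⟨a * b, by rw [map_mul]; exact mul_mem ha hb, map_mul _ _ _⟩

/-- (LIFT): every nonzero element of `F_k` is a quotient of reductions of integral elements. -/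
theorem exists_intEl_div [NeZero N] (g : Fk A N) (hg : g ≠ 0) :
    ∃ G₁ G₂ : IntEl A N, g = G₁.down / G₂.down := by
  obtain ⟨r, hr, s, hs, hrs⟩ := IntermediateField.mem_adjoin_iff_div.1 g.2
  have hg' : (g : LaurentSeries (kA A)) ≠ 0 := fun h => hg (Subtype.ext h)
  have hr0 : r ≠ 0 := by
    rintro rfl
    exact hg' (by rw [hrs, zero_div])
  have hs0 : s ≠ 0 := by
    rintro rfl
    exact hg' (by rw [hrs, div_zero])
  obtain ⟨a, ha, rfl⟩ := exists_lift_of_mem_adjoin hr
  obtain ⟨b, hb, rfl⟩ := exists_lift_of_mem_adjoin hs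
  refine ⟨⟨a, ha, IntermediateField.algebra_adjoin_le_adjoin _ _ hr, hr0⟩,
    ⟨b, hb, IntermediateField.algebra_adjoin_le_adjoin _ _ hs, hs0⟩, Subtype.ext ?_⟩
  exact hrs

/-- The residue field of a valuation subring of `ℚ̄` is algebraically closed. -/
theorem isAlgClosed_kA (A : ValuationSubring Qb) : IsAlgClosed (kA A) := by
  refine IsAlgClosed.of_exists_root _ fun p hp hirr => ?_
  obtain ⟨P, hPmap, hPdeg, hPmonic⟩ := Polynomial.lifts_and_degree_eq_and_monic
    ((Polynomial.mem_lifts p).2 (Polynomial.map_surjective (IsLocalRing.residue A)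
      IsLocalRing.residue_surjective p)) hp
  have hdeg : (P.map A.subtype).degree ≠ 0 := by
    rw [Polynomial.degree_map_eq_of_injective A.subtype_injective, hPdeg]
    exact (Polynomial.degree_pos_of_irreducible hirr).ne'
  obtain ⟨α, hα⟩ := IsAlgClosed.exists_root _ hdeg
  have hint : IsIntegral A α := ⟨P, hPmonic, by
    rw [Polynomial.IsRoot.def, Polynomial.eval_map] at hα
    exact hα⟩
  obtain ⟨a, rfl⟩ := IsIntegrallyClosed.isIntegral_iff.1 hint
  refine ⟨IsLocalRing.residue A a, ?_⟩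
  rw [← hPmap, Polynomial.eval_map, Polynomial.eval₂_hom]
  have h0 : P.eval a = 0 := by
    apply A.subtype_injective
    rw [map_zero, ← Polynomial.eval₂_hom, ← Polynomial.eval_map]
    exact hα
  rw [h0, map_zero]

set_option maxHeartbeats 4000000 in
/-- **S18 from Claim K and CONST_k.** -/
theorem result_of (N : ℕ) [NeZero N] {ℓ : ℕ} (A : ValuationSubring Qb)
    (hK : StmtClaimK N ℓ A) (hC : StmtConstK N A)
    (h : ModularCurve.ReductionInputsModL A N) (m : ℕ) (hm : ¬ ℓ ∣ m) (z : ModularCurve.JZero N)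
    (hmz : m • z = 0) (hz : ModularCurve.reductionModL A N z = 0) :
    z = 0 := by
  have := isAlgClosed_kA A
  have hm0 : m ≠ 0 := by
    rintro rfl
    exact hm (dvd_zero _)
  have hmZ : (m : ℤ) ≠ 0 := by exact_mod_cast hm0
  obtain ⟨D, rfl⟩ := Pic0.mk_surjective z
  set r := placeReductionModL h with hr_def
  have hr : IsPlaceReductionModL A N r := isPlaceReductionModL_placeReductionModL h
  have hgen : PrincipalGeneratedByIntegral A (IsLocalRing.residue A) N := h.choose_spec.2
  -- `m D` is principal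
  have hmD : m • (D : Divisor Qb (FL N)) ∈ Divisor.principal (K := Qb) (F := FL N) := by
    have h1 : (Pic0.mk (m • D) : JZero N) = 0 := hmz
    have h2 := (QuotientAddGroup.eq_zero_iff (m • D)).1 h1
    simpa [AddSubgroup.mem_addSubgroupOf] using h2
  -- `r_* D` is principal
  have hrD : Finsupp.mapDomain r (D : Divisor Qb (FL N)) ∈
      Divisor.principal (K := kA A) (F := Fk A N) := by
    rw [reductionModL_mk h D] at hz
    have h2 := (QuotientAddGroup.eq_zero_iff _).1 hz
    simpa [AddSubgroup.mem_addSubgroupOf] using h2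
  obtain ⟨g, hg0, hg⟩ := Divisor.mem_principal.1 hrD
  obtain ⟨e₁, e₂, E₁, E₂, hE₁, hE₂, hDE⟩ := exists_intEl_of_mem_closure (hgen hmD)
  have hrE₁ : ∀ Q, Finsupp.mapDomain r E₁ Q = Q.ord e₁.down :=
    hr.2 e₁.y e₁.memL e₁.memk e₁.ne E₁ hE₁
  have hrE₂ : ∀ Q, Finsupp.mapDomain r E₂ Q = Q.ord e₂.down :=
    hr.2 e₂.y e₂.memL e₂.memk e₂.ne E₂ hE₂
  -- the quotient has trivial divisor
  have hord : ∀ Q : Place (kA A) (Fk A N), (m : ℤ) * Q.ord g = Q.ord e₁.down - Q.ord e₂.down := by
    intro Q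
    have h1 := congrArg (fun E => Finsupp.mapDomain r E Q) hDE
    simp only [Finsupp.mapDomain_sub, Finsupp.sub_apply, hrE₁, hrE₂] at h1
    rw [← h1, ← Finsupp.mapDomain.addMonoidHom_apply, map_nsmul,
      Finsupp.mapDomain.addMonoidHom_apply, Finsupp.smul_apply, hg, nsmul_eq_mul]
  obtain ⟨c, hc⟩ := hC (e₁.down / (e₂.down * g ^ m))
    (div_ne_zero e₁.down_ne (mul_ne_zero e₂.down_ne (pow_ne_zero m hg0))) (fun Q => by
      rw [div_eq_mul_inv, Place.ord_mul Q e₁.down_ne
        (inv_ne_zero (mul_ne_zero e₂.down_ne (pow_ne_zero m hg0))), Place.ord_inv,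
        Place.ord_mul Q e₂.down_ne (pow_ne_zero m hg0), ← zpow_natCast, Place.ord_zpow, hord Q]
      ring)
  obtain ⟨d, hd⟩ := IsAlgClosed.exists_pow_nat_eq c (Nat.pos_of_ne_zero hm0)
  -- `g' = d g`
  set g' : Fk A N := algebraMap (kA A) (Fk A N) d * g with hg'
  have he : e₁.down = e₂.down * g' ^ m := by
    rw [hg', mul_pow, ← map_pow, hd, ← hc]
    field_simp [e₂.down_ne, hg0]
  have hg'0 : g' ≠ 0 := by
    intro h0
    rw [h0, zero_pow hm0, mul_zero] at he
    exact e₁.down_ne he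
  obtain ⟨G₁, G₂, hG⟩ := exists_intEl_div g' hg'0
  set Y₁ := e₁.mul (G₂.pow m) with hY₁
  set Y₂ := e₂.mul (G₁.pow m) with hY₂
  have hdown : Y₁.down = Y₂.down := by
    rw [hY₁, hY₂, IntEl.down_mul, IntEl.down_mul, IntEl.down_pow, IntEl.down_pow, he, hG, div_pow]
    field_simp [G₂.down_ne]
  have hEP : ∀ P : Place Qb (FL N), P.ord e₁.up - P.ord e₂.up = (m : ℤ) * (D : Divisor Qb (FL N)) P := by
    intro P
    have h1 := congrArg (fun E => E P) hDE
    simp only [Finsupp.sub_apply, Finsupp.smul_apply, hE₁, hE₂, nsmul_eq_mul] at h1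
    exact h1.symm
  obtain ⟨f, hf⟩ := hK m hm Y₁.y Y₂.y Y₁.memL Y₂.memL (congrArg Subtype.val hdown) Y₁.ne Y₁.memk
    (fun P => by
      change (m : ℤ) ∣ P.ord (Y₁.up / Y₂.up)
      rw [div_eq_mul_inv, Place.ord_mul P Y₁.up_ne (inv_ne_zero Y₂.up_ne), Place.ord_inv, hY₁, hY₂,
        IntEl.up_mul, IntEl.up_mul, IntEl.up_pow, IntEl.up_pow,
        Place.ord_mul P e₁.up_ne (pow_ne_zero m G₂.up_ne),
        Place.ord_mul P e₂.up_ne (pow_ne_zero m G₁.up_ne), ← zpow_natCast, ← zpow_natCast,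
        Place.ord_zpow, Place.ord_zpow]
      refine ⟨(D : Divisor Qb (FL N)) P + P.ord G₂.up - P.ord G₁.up, ?_⟩
      have := hEP P
      linear_combination this)
  change f ^ m = Y₁.up / Y₂.up at hf
  have hf0 : f ≠ 0 := by
    rintro rfl
    rw [zero_pow hm0] at hf
    exact div_ne_zero Y₁.up_ne Y₂.up_ne hf.symm
  -- `D = div (f G₁ / G₂)`
  have hprin : (D : Divisor Qb (FL N)) ∈ Divisor.principal (K := Qb) (F := FL N) := by
    refine Divisor.mem_principal.2 ⟨f * G₁.up / G₂.up,
      div_ne_zero (mul_ne_zero hf0 G₁.up_ne) G₂.up_ne, fun P => ?_⟩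
    have h1 : (m : ℤ) * P.ord f = P.ord (Y₁.up / Y₂.up) := by
      rw [← hf, ← zpow_natCast, Place.ord_zpow]
    rw [div_eq_mul_inv, Place.ord_mul P Y₁.up_ne (inv_ne_zero Y₂.up_ne), Place.ord_inv, hY₁, hY₂,
        IntEl.up_mul, IntEl.up_mul, IntEl.up_pow, IntEl.up_pow,
        Place.ord_mul P e₁.up_ne (pow_ne_zero m G₂.up_ne),
        Place.ord_mul P e₂.up_ne (pow_ne_zero m G₁.up_ne), ← zpow_natCast, ← zpow_natCast,
        Place.ord_zpow, Place.ord_zpow] at h1
    rw [div_eq_mul_inv, Place.ord_mul P (mul_ne_zero hf0 G₁.up_ne) (inv_ne_zero G₂.up_ne),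
      Place.ord_inv, Place.ord_mul P hf0 G₁.up_ne]
    have := hEP P
    apply mul_left_cancel₀ hmZ
    linear_combination -h1 - this
  exact (QuotientAddGroup.eq_zero_iff D).2 (by
    simpa [AddSubgroup.mem_addSubgroupOf] using hprin)

end Fermat.Agent.S18G
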