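import Fermat.Agent.S18.Glue

/-!
# S18 glue, part 3: the local form of "Claim K" (fixed `N`, `ℓ`, `A`; the common reduction is
allowed to be assumed in the function field over the residue field) suffices for S18.
-/

set_option autoImplicit false

noncomputable section

namespace Fermat.Agent.S18

open AlgebraicCurve ModularCurve HahnSeries IntermediateField

/-- **Claim K**, local ratio form (weakest shape: fixed `N`, `ℓ`, `A`, and the common reduction is
a nonzero element of the function field over the residue field). -/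
def Stmt_ClaimK_at (N : ℕ) (ℓ : ℕ) (A : ValuationSubring Qb) : Prop :=
  ∀ m : ℕ, ¬ ℓ ∣ m → ∀ (y₁ y₂ : LaurentSeries A)
    (h₁ : coeffMap A.subtype y₁ ∈ modularFunctionFieldBar N)
    (h₂ : coeffMap A.subtype y₂ ∈ modularFunctionFieldBar N),
    coeffMap (IsLocalRing.residue A) y₁ = coeffMap (IsLocalRing.residue A) y₂ →
    coeffMap (IsLocalRing.residue A) y₁ ≠ 0 →
    coeffMap (IsLocalRing.residue A) y₁ ∈
      modularFunctionFieldFullC (IsLocalRing.ResidueField A) N →
    (∀ P : Place Qb (modularFunctionFieldBar N),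
      (m : ℤ) ∣ P.ord ((⟨_, h₁⟩ : modularFunctionFieldBar N) / ⟨_, h₂⟩)) →
    ∃ g : modularFunctionFieldBar N, g ^ m = (⟨_, h₁⟩ : modularFunctionFieldBar N) / ⟨_, h₂⟩

theorem Stmt_ClaimK.at (hK : Stmt_ClaimK) (N : ℕ) [NeZero N] (ℓ : ℕ) [Fact ℓ.Prime]
    (hℓN : ¬ ℓ ∣ N) (A : ValuationSubring Qb) (hA : A.LiesOverPrime ℓ) :
    Stmt_ClaimK_at N ℓ A := by
  intro m hm y₁ y₂ h₁ h₂ he hne _ hdiv
  exact hK N ℓ hℓN A hA m hm y₁ y₂ h₁ h₂ he (he ▸ hne) hdiv

set_option synthInstance.maxHeartbeats 400000 in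
/-- **S18 follows from the local form of Claim K.** -/
theorem result_of_at (N : ℕ) [NeZero N] {ℓ : ℕ}
    (A : ValuationSubring (AlgebraicClosure ℚ)) (hK : Stmt_ClaimK_at N ℓ A)
    (h : ModularCurve.ReductionInputsModL A N) (m : ℕ) (hm : ¬ ℓ ∣ m) (z : ModularCurve.JZero N)
    (hmz : m • z = 0) (hz : ModularCurve.reductionModL A N z = 0) :
    z = 0 := by
  obtain ⟨D, rfl⟩ := Pic0.mk_surjective z
  have hr := isPlaceReductionModL_placeReductionModL h
  have hgen : PrincipalGeneratedByIntegral A (IsLocalRing.residue A) N := h.choose_spec.2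
  have hm0 : m ≠ 0 := by
    rintro rfl
    exact hm (dvd_zero ℓ)
  rw [reductionModL_mk h D] at hz
  have hrD : Finsupp.mapDomain (placeReductionModL h) (D : Divisor Qb (modularFunctionFieldBar N))
      ∈ Divisor.principal (K := IsLocalRing.ResidueField A)
        (F := modularFunctionFieldFullC (IsLocalRing.ResidueField A) N) := by
    have h1 := (QuotientAddGroup.eq_zero_iff _).mp hz
    rw [AddSubgroup.mem_addSubgroupOf, coe_reductionDegZeroAlong] at h1
    exact h1
  have hmD : m • (D : Divisor Qb (modularFunctionFieldBar N))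
      ∈ Divisor.principal (K := Qb) (F := modularFunctionFieldBar N) := by
    have h1 : Pic0.mk (m • D) = 0 := hmz
    have h2 := (QuotientAddGroup.eq_zero_iff _).mp h1
    rw [AddSubgroup.mem_addSubgroupOf] at h2
    exact h2
  have key := main_along (π := IsLocalRing.residue A) IsLocalRing.residue_surjective
    (placeReductionModL h) hr hgen m hm0 (by
      intro f g fb hf hg hdiv
      obtain ⟨_, y₁, hy₁, hyb₁⟩ := hf
      obtain ⟨hfb, y₂, hy₂, hyb₂⟩ := hg
      have hm1 : coeffMap A.subtype y₁ ∈ modularFunctionFieldBar N := hy₁ ▸ f.2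
      have hm2 : coeffMap A.subtype y₂ ∈ modularFunctionFieldBar N := hy₂ ▸ g.2
      have e1 : (⟨_, hm1⟩ : modularFunctionFieldBar N) = f := Subtype.ext hy₁
      have e2 : (⟨_, hm2⟩ : modularFunctionFieldBar N) = g := Subtype.ext hy₂
      have := hK m hm y₁ y₂ hm1 hm2 (by rw [hyb₁, hyb₂]) (by
        rw [hyb₁]
        intro h0
        exact hfb (Subtype.ext h0)) (by rw [hyb₁]; exact fb.2) (by rw [e1, e2]; exact hdiv)
      rwa [e1, e2] at this) D hmD hrD
  apply (QuotientAddGroup.eq_zero_iff _).mpr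
  rw [AddSubgroup.mem_addSubgroupOf]
  exact key

end Fermat.Agent.S18

end
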