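import Mathlib
import Fermat.Prelude.Def_AlgebraicCurve_DivisorClassGroup
import Fermat.Agent.S24.DegPrincipal

/-!
# S18 glue: the abstract argument

`F/K` a function field (char. 0, `K` algebraically closed), `Fk/k` another field, `r` a degree
preserving map on places, `I f fb` a relation ("`f` is integral with nonzero reduction `fb`").
-/

set_option autoImplicit false
set_option linter.unusedSectionVars false

noncomputable section

namespace Fermat.Agent.S18

open AlgebraicCurve IntermediateField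

section General

variable {K F : Type*} [Field K] [IsAlgClosed K] [CharZero K] [Field F] [Algebra K F]

theorem exists_divisor (j : F) (hj : Transcendental K j) [FiniteDimensional K⟮j⟯ F]
    (f : F) : ∃ D : Divisor K F, ∀ v, D v = v.ord f := by
  classical
  by_cases hf : IsAlgebraic K f
  · obtain ⟨a, rfl⟩ := minpoly.mem_range_of_degree_eq_one K f
      (IsAlgClosed.degree_eq_one_of_irreducible K (minpoly.irreducible hf.isIntegral))
    exact ⟨0, fun v => by rw [S24.ord_algebraMap]; rfl⟩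
  · have hf' : Transcendental K f := hf
    have hfi : Transcendental K f⁻¹ := S24.transcendental_inv_of_transcendental hf'
    have fd1 : FiniteDimensional K⟮f⟯ F :=
      S24.finiteDimensional_adjoin_simple_of_transcendental j hj f hf'
    have fd2 : FiniteDimensional K⟮f⁻¹⟯ F :=
      S24.finiteDimensional_adjoin_simple_of_transcendental j hj f⁻¹ hfi
    have h1 := S24.zeroPlaces_finite (K := K) f hf'
    have h2 := S24.zeroPlaces_finite (K := K) f⁻¹ hfi
    have hfin : (Function.support fun v : Place K F => v.ord f).Finite := by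
      refine (h1.union h2).subset ?_
      intro v hv
      simp only [Function.mem_support] at hv
      simp only [Set.mem_union, S24.zeroPlaces, Set.mem_ofPred_eq, Place.ord_inv]
      omega
    exact ⟨Finsupp.ofSupportFinite _ hfin, fun v => rfl⟩

end General

section Red

variable {K F k Fk : Type*} [Field K] [Field F] [Algebra K F] [Field k] [Field Fk] [Algebra k Fk]
variable (r : Place K F → Place k Fk)

/-- `fb` "is the reduction of" `f` as far as divisors are concerned. -/
def Red (f : F) (fb : Fk) : Prop :=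
  f ≠ 0 ∧ fb ≠ 0 ∧ ∀ D : Divisor K F, (∀ P, D P = P.ord f) →
    ∀ Q, Finsupp.mapDomain r D Q = Q.ord fb

variable {r}

theorem Red.mul (hdiv : ∀ f : F, ∃ D : Divisor K F, ∀ v, D v = v.ord f)
    {f g : F} {fb gb : Fk} (h1 : Red r f fb) (h2 : Red r g gb) :
    Red r (f * g) (fb * gb) := by
  refine ⟨mul_ne_zero h1.1 h2.1, mul_ne_zero h1.2.1 h2.2.1, fun D hD Q => ?_⟩
  obtain ⟨D1, hD1⟩ := hdiv f
  obtain ⟨D2, hD2⟩ := hdiv g
  have e : D = D1 + D2 := by
    ext P
    rw [hD P, Finsupp.add_apply, hD1, hD2, P.ord_mul h1.1 h2.1]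
  rw [e, Finsupp.mapDomain_add, Finsupp.add_apply, h1.2.2 D1 hD1 Q, h2.2.2 D2 hD2 Q,
    Q.ord_mul h1.2.1 h2.2.1]

theorem Red.inv (hdiv : ∀ f : F, ∃ D : Divisor K F, ∀ v, D v = v.ord f)
    {f : F} {fb : Fk} (h1 : Red r f fb) : Red r f⁻¹ fb⁻¹ := by
  refine ⟨inv_ne_zero h1.1, inv_ne_zero h1.2.1, fun D hD Q => ?_⟩
  obtain ⟨D1, hD1⟩ := hdiv f
  have e : D = -D1 := by
    ext P
    rw [hD P, Finsupp.neg_apply, hD1, P.ord_inv]
  rw [e, ← Finsupp.mapDomain.addMonoidHom_apply, map_neg, Finsupp.mapDomain.addMonoidHom_apply,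
    Finsupp.neg_apply, h1.2.2 D1 hD1 Q, Q.ord_inv]

theorem Red.div (hdiv : ∀ f : F, ∃ D : Divisor K F, ∀ v, D v = v.ord f)
    {f g : F} {fb gb : Fk} (h1 : Red r f fb) (h2 : Red r g gb) :
    Red r (f / g) (fb / gb) := by
  rw [div_eq_mul_inv, div_eq_mul_inv]
  exact h1.mul hdiv (h2.inv hdiv)

theorem Red.one : Red r (1 : F) (1 : Fk) := by
  refine ⟨one_ne_zero, one_ne_zero, fun D hD Q => ?_⟩
  have e : D = 0 := by
    ext P
    rw [hD P, Place.ord_one]; rfl
  rw [e, Finsupp.mapDomain_zero, Place.ord_one]; rfl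

theorem Red.pow (hdiv : ∀ f : F, ∃ D : Divisor K F, ∀ v, D v = v.ord f)
    {f : F} {fb : Fk} (h1 : Red r f fb) (n : ℕ) : Red r (f ^ n) (fb ^ n) := by
  induction n with
  | zero => simpa using Red.one
  | succ n ih => rw [pow_succ, pow_succ]; exact ih.mul hdiv h1

end Red

section Abstract

variable {K F k Fk : Type*} [Field K] [IsAlgClosed K] [CharZero K] [Field F] [Algebra K F]
  [Field k] [Field Fk] [Algebra k Fk]

theorem ord_pow' (P : Place K F) (f : F) (n : ℕ) : P.ord (f ^ n) = n * P.ord f := by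
  have := P.ord_zpow f (n : ℤ)
  rwa [zpow_natCast] at this

/-- A function on the special fibre without zeros and poles which is a quotient of reductions of
integral functions is constant. -/
theorem const_of_ord_zero (j : F) (hj : Transcendental K j) [FiniteDimensional K⟮j⟯ F]
    (r : Place K F → Place k Fk) (hdeg : ∀ P, (r P).deg = P.deg)
    (I : F → Fk → Prop) (hIred : ∀ f fb, I f fb → Red r f fb)
    (hIsub : ∀ f fb g gb, I f fb → I g gb → ∀ cb : k, ∃ c : K,
      (cb ≠ 0 → I (algebraMap K F c * g) (algebraMap k Fk cb * gb)) ∧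
      (fb - algebraMap k Fk cb * gb ≠ 0 →
        I (f - algebraMap K F c * g) (fb - algebraMap k Fk cb * gb)))
    (Pinf : Place k Fk)
    (hPinf : ∀ u : Fk, u ≠ 0 → Pinf.ord u = 0 → ∃ cb : k, cb ≠ 0 ∧
      (u = algebraMap k Fk cb ∨ 0 < Pinf.ord (u - algebraMap k Fk cb)))
    (f g : F) (fb gb : Fk) (hf : I f fb) (hg : I g gb) (h0 : ∀ Q : Place k Fk, Q.ord (fb / gb) = 0) :
    ∃ c : K, I (algebraMap K F c * g) fb := by
  classical
  have hdiv : ∀ f : F, ∃ D : Divisor K F, ∀ v, D v = v.ord f := exists_divisor j hj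
  have hfb := (hIred f fb hf).2.1
  have hgb := (hIred g gb hg).2.1
  have hu0 : fb / gb ≠ 0 := div_ne_zero hfb hgb
  obtain ⟨cb, hcb, hc⟩ := hPinf (fb / gb) hu0 (h0 Pinf)
  obtain ⟨c, hc1, hc2⟩ := hIsub f fb g gb hf hg cb
  rcases hc with hc | hc
  · refine ⟨c, ?_⟩
    have := hc1 hcb
    rwa [← hc, div_mul_cancel₀ _ hgb] at this
  · exfalso
    have hv : fb / gb - algebraMap k Fk cb = (fb - algebraMap k Fk cb * gb) / gb := by
      field_simp
    have hv0 : fb / gb - algebraMap k Fk cb ≠ 0 := by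
      intro h
      rw [h, Place.ord_zero] at hc
      exact lt_irrefl _ hc
    have hne : fb - algebraMap k Fk cb * gb ≠ 0 := by
      intro h
      rw [hv, h, zero_div] at hv0
      exact hv0 rfl
    have hI := hc2 hne
    have hred : Red r ((f - algebraMap K F c * g) / g) (fb / gb - algebraMap k Fk cb) := by
      rw [hv]
      exact (hIred _ _ hI).div hdiv (hIred _ _ hg)
    obtain ⟨E, hE⟩ := hdiv ((f - algebraMap K F c * g) / g)
    have hEdeg : Divisor.degree E = 0 :=
      S24.degree_eq_zero_of_forall_ord j hj _ hred.1 E hE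
    set E' : Divisor k Fk := Finsupp.mapDomain r E with hE'
    have hE'Q : ∀ Q, E' Q = Q.ord (fb / gb - algebraMap k Fk cb) := hred.2.2 E hE
    have hE'deg : Divisor.degree E' = 0 := by
      rw [← hEdeg]
      clear hEdeg hE'Q hE
      rw [hE']
      clear hE'
      induction E using Finsupp.induction with
      | zero => simp
      | single_add P n D _ _ ih =>
        rw [Finsupp.mapDomain_add, map_add, map_add, ih, Finsupp.mapDomain_single,
          Divisor.degree_single, Divisor.degree_single, hdeg]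
    have hnonneg : ∀ Q, 0 ≤ E' Q := by
      intro Q
      rw [hE'Q]
      apply S24.ord_nonneg_of_mem
      apply sub_mem
      · exact S24.mem_of_ord_nonneg Q hu0 (h0 Q).ge
      · exact Q.algebraMap_mem' cb
    have hpos : 0 < E' Pinf := by rw [hE'Q]; exact hc
    have hmem : Pinf ∈ E'.support := by
      rw [Finsupp.mem_support_iff]; exact hpos.ne'
    have hdeg1 : Pinf.deg = 1 := by
      have := Finsupp.mapDomain_support hmem
      rw [Finset.mem_image] at this
      obtain ⟨P, _, hP⟩ := this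
      rw [← hP, hdeg, S24.place_deg_eq_one j hj P]
    rw [S24.degree_eq_sum_support] at hE'deg
    have hle : E' Pinf * (Pinf.deg : ℤ) ≤ ∑ v ∈ E'.support, E' v * (v.deg : ℤ) :=
      Finset.single_le_sum (f := fun v => E' v * (v.deg : ℤ))
        (fun v _ => mul_nonneg (hnonneg v) (Int.natCast_nonneg _)) hmem
    rw [hE'deg, hdeg1] at hle
    simp at hle
    omega

/-- The abstract form of S18. -/
theorem abstract_main (j : F) (hj : Transcendental K j) [FiniteDimensional K⟮j⟯ F]
    (r : Place K F → Place k Fk) (hdeg : ∀ P, (r P).deg = P.deg)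
    (I : F → Fk → Prop) (hIred : ∀ f fb, I f fb → Red r f fb)
    (hIone : I 1 1)
    (hImul : ∀ f fb g gb, I f fb → I g gb → I (f * g) (fb * gb))
    (hIsub : ∀ f fb g gb, I f fb → I g gb → ∀ cb : k, ∃ c : K,
      (cb ≠ 0 → I (algebraMap K F c * g) (algebraMap k Fk cb * gb)) ∧
      (fb - algebraMap k Fk cb * gb ≠ 0 →
        I (f - algebraMap K F c * g) (fb - algebraMap k Fk cb * gb)))
    (hIlift : ∀ w : Fk, w ≠ 0 → ∃ a ab b bb, I a ab ∧ I b bb ∧ w = ab / bb)
    (hIgen : Divisor.principal (K := K) (F := F) ≤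
      AddSubgroup.closure {D | ∃ f fb, I f fb ∧ ∀ P, D P = P.ord f})
    (Pinf : Place k Fk)
    (hPinf : ∀ u : Fk, u ≠ 0 → Pinf.ord u = 0 → ∃ cb : k, cb ≠ 0 ∧
      (u = algebraMap k Fk cb ∨ 0 < Pinf.ord (u - algebraMap k Fk cb)))
    (m : ℕ) (hm : m ≠ 0)
    (hK : ∀ f g fb, I f fb → I g fb → (∀ P : Place K F, (m : ℤ) ∣ P.ord (f / g)) →
      ∃ h : F, h ^ m = f / g)
    (D : Divisor K F) (hmD : m • D ∈ Divisor.principal (K := K) (F := F))
    (hrD : Finsupp.mapDomain r D ∈ Divisor.principal (K := k) (F := Fk)) :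
    D ∈ Divisor.principal (K := K) (F := F) := by
  classical
  have hdiv : ∀ f : F, ∃ D : Divisor K F, ∀ v, D v = v.ord f := exists_divisor j hj
  have hIpow : ∀ f fb, I f fb → ∀ n : ℕ, I (f ^ n) (fb ^ n) := by
    intro f fb h n
    induction n with
    | zero => simpa using hIone
    | succ n ih => rw [pow_succ, pow_succ]; exact hImul _ _ _ _ ih h
  -- step 1 : every element of the closure is the divisor of a quotient of integral functions
  have hcl : ∀ E ∈ AddSubgroup.closure {D : Divisor K F | ∃ f fb, I f fb ∧ ∀ P, D P = P.ord f},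
      ∃ a ab b bb, I a ab ∧ I b bb ∧ ∀ P : Place K F, E P = P.ord (a / b) := by
    intro E hE
    induction hE using AddSubgroup.closure_induction with
    | mem E hE =>
      obtain ⟨f, fb, hf, hE⟩ := hE
      exact ⟨f, fb, 1, 1, hf, hIone, fun P => by rw [hE P, div_one]⟩
    | zero => exact ⟨1, 1, 1, 1, hIone, hIone, fun P => by simp⟩
    | add E E' _ _ h1 h2 =>
      obtain ⟨a, ab, b, bb, ha, hb, hE⟩ := h1
      obtain ⟨a', ab', b', bb', ha', hb', hE'⟩ := h2
      refine ⟨a * a', ab * ab', b * b', bb * bb', hImul _ _ _ _ ha ha', hImul _ _ _ _ hb hb',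
        fun P => ?_⟩
      have h1 := (hIred _ _ ha).1
      have h2 := (hIred _ _ hb).1
      have h3 := (hIred _ _ ha').1
      have h4 := (hIred _ _ hb').1
      rw [Finsupp.add_apply, hE P, hE' P, ← P.ord_mul (div_ne_zero h1 h2) (div_ne_zero h3 h4),
        div_mul_div_comm]
    | neg E _ h1 =>
      obtain ⟨a, ab, b, bb, ha, hb, hE⟩ := h1
      exact ⟨b, bb, a, ab, hb, ha, fun P => by rw [Finsupp.neg_apply, hE P, ← P.ord_inv, inv_div]⟩
  obtain ⟨a0, a0b, b0, b0b, ha0, hb0, hmD'⟩ := hcl _ (hIgen hmD)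
  obtain ⟨w, hw0, hw⟩ := hrD
  obtain ⟨a1, a1b, b1, b1b, ha1, hb1, hw'⟩ := hIlift w hw0
  have na0 := (hIred _ _ ha0).1
  have nb0 := (hIred _ _ hb0).1
  have na1 := (hIred _ _ ha1).1
  have nb1 := (hIred _ _ hb1).1
  -- the two integral functions
  have hyp : I (a0 * b1 ^ m) (a0b * b1b ^ m) := hImul _ _ _ _ ha0 (hIpow _ _ hb1 m)
  have hym : I (b0 * a1 ^ m) (b0b * a1b ^ m) := hImul _ _ _ _ hb0 (hIpow _ _ ha1 m)
  obtain ⟨D1, hD1⟩ := hdiv (a1 / b1)
  have hu : (a0 * b1 ^ m) / (b0 * a1 ^ m) = (a0 / b0) * ((a1 / b1) ^ m)⁻¹ := by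
    rw [div_pow]
    field_simp
  have hordu : ∀ P : Place K F, P.ord ((a0 * b1 ^ m) / (b0 * a1 ^ m)) = m * (D P - D1 P) := by
    intro P
    rw [hu, P.ord_mul (div_ne_zero na0 nb0) (inv_ne_zero (pow_ne_zero m (div_ne_zero na1 nb1))),
      P.ord_inv, ord_pow', ← hmD' P, ← hD1 P, Finsupp.smul_apply]
    simp only [nsmul_eq_mul]
    ring
  have hredu : Red r ((a0 * b1 ^ m) / (b0 * a1 ^ m)) ((a0b * b1b ^ m) / (b0b * a1b ^ m)) :=
    (hIred _ _ hyp).div hdiv (hIred _ _ hym)
  have hred1 : Red r (a1 / b1) (a1b / b1b) := (hIred _ _ ha1).div hdiv (hIred _ _ hb1)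
  have h0 : ∀ Q : Place k Fk, Q.ord ((a0b * b1b ^ m) / (b0b * a1b ^ m)) = 0 := by
    intro Q
    have h1 := hredu.2.2 (m • (D - D1)) (fun P => by
      rw [hordu P, Finsupp.smul_apply, Finsupp.sub_apply]; simp only [nsmul_eq_mul]) Q
    rw [← h1, ← Finsupp.mapDomain.addMonoidHom_apply, map_nsmul, map_sub,
      Finsupp.mapDomain.addMonoidHom_apply, Finsupp.mapDomain.addMonoidHom_apply,
      Finsupp.smul_apply, Finsupp.sub_apply, hw Q, hred1.2.2 D1 hD1 Q, hw', sub_self, smul_zero]
  obtain ⟨c, hc⟩ := const_of_ord_zero j hj r hdeg I hIred hIsub Pinf hPinf _ _ _ _ hyp hym h0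
  have hc0 : algebraMap K F c ≠ 0 := by
    intro h
    have := (hIred _ _ hc).1
    rw [h, zero_mul] at this
    exact this rfl
  have hordc : ∀ P : Place K F, P.ord ((a0 * b1 ^ m) / (algebraMap K F c * (b0 * a1 ^ m)))
      = m * (D P - D1 P) := by
    intro P
    have e : (a0 * b1 ^ m) / (algebraMap K F c * (b0 * a1 ^ m))
        = (algebraMap K F c)⁻¹ * ((a0 * b1 ^ m) / (b0 * a1 ^ m)) := by
      field_simp
    rw [e, P.ord_mul (inv_ne_zero hc0) hredu.1, P.ord_inv, S24.ord_algebraMap, hordu P]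
    ring
  obtain ⟨g, hg⟩ := hK _ _ _ hyp hc (fun P => ⟨_, hordc P⟩)
  have hg0 : g ≠ 0 := by
    rintro rfl
    rw [zero_pow hm] at hg
    exact (div_ne_zero (hIred _ _ hyp).1 (hIred _ _ hc).1) hg.symm
  refine ⟨g * (a1 / b1), mul_ne_zero hg0 (div_ne_zero na1 nb1), fun P => ?_⟩
  rw [P.ord_mul hg0 (div_ne_zero na1 nb1), ← hD1 P]
  have h1 : (m : ℤ) * P.ord g = m * (D P - D1 P) := by
    rw [← ord_pow', hg, hordc P]
  have hm' : (m : ℤ) ≠ 0 := by exact_mod_cast hm
  have := mul_left_cancel₀ hm' h1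
  omega

end Abstract

end Fermat.Agent.S18

end
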