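import Mathlib
import Fermat.Prelude.Def_AlgebraicCurve_DivisorClassGroup
import Fermat.Agent.S24.PlaceBasic

/-!
# S18 glue, part 1: the `q`-adic place of a subfield of `k((q))` containing an element of order `1`
-/

set_option autoImplicit false

namespace Fermat.Agent.S18

open AlgebraicCurve HahnSeries

variable {k : Type*} [Field k] (E : IntermediateField k (LaurentSeries k))

theorem order_inv' (f : LaurentSeries k) (hf : f ≠ 0) : (f⁻¹).order = - f.order := by
  have h := HahnSeries.order_mul hf (inv_ne_zero hf)
  rw [mul_inv_cancel₀ hf, HahnSeries.order_one] at h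
  omega

theorem order_algebraMap' (c : k) : (algebraMap k (LaurentSeries k) c).order = 0 := by
  have h1 : algebraMap k (PowerSeries k) c = PowerSeries.C c := by simp
  rw [HahnSeries.algebraMap_apply', h1, HahnSeries.ofPowerSeries_C]
  exact HahnSeries.order_C

/-- the valuation subring of `E` of series without pole at `q = 0`. -/
def qValSubring : ValuationSubring E where
  carrier := {f | 0 ≤ (f : LaurentSeries k).order}
  mul_mem' := by
    intro a b ha hb
    simp only [Set.mem_ofPred_eq] at ha hb ⊢
    by_cases ha0 : (a : LaurentSeries k) = 0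
    · simp [ha0]
    by_cases hb0 : (b : LaurentSeries k) = 0
    · simp [hb0]
    rw [MulMemClass.coe_mul, HahnSeries.order_mul ha0 hb0]
    omega
  one_mem' := by simp
  add_mem' := by
    intro a b ha hb
    simp only [Set.mem_ofPred_eq] at ha hb ⊢
    by_cases hab : (a : LaurentSeries k) + b = 0
    · rw [AddMemClass.coe_add, hab]; simp
    have := HahnSeries.min_order_le_order_add hab
    rw [AddMemClass.coe_add]
    exact le_trans (le_min ha hb) this
  zero_mem' := by simp
  neg_mem' := by
    intro a ha
    simp only [Set.mem_ofPred_eq] at ha ⊢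
    rw [NegMemClass.coe_neg, HahnSeries.order_neg]
    exact ha
  mem_or_inv_mem' := by
    intro a
    simp only [Set.mem_ofPred_eq]
    by_cases ha0 : (a : LaurentSeries k) = 0
    · left; simp [ha0]
    rcases le_total 0 (a : LaurentSeries k).order with h | h
    · exact Or.inl h
    · right
      have : ((a⁻¹ : E) : LaurentSeries k) = (a : LaurentSeries k)⁻¹ := rfl
      rw [this, order_inv' _ ha0]
      omega

theorem mem_qValSubring {f : E} : f ∈ qValSubring E ↔ 0 ≤ (f : LaurentSeries k).order := Iff.rfl

variable {E}

theorem isUnit_qValSubring_iff (a : qValSubring E) (ha : a ≠ 0) :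
    IsUnit a ↔ ((a : E) : LaurentSeries k).order = 0 := by
  have ha0 : ((a : E) : LaurentSeries k) ≠ 0 := fun h => ha (Subtype.ext (Subtype.ext h))
  constructor
  · intro hu
    obtain ⟨b, hb⟩ := isUnit_iff_exists_inv.mp hu
    have hb' : ((a : E) : LaurentSeries k) * ((b : E) : LaurentSeries k) = 1 := by
      have := congrArg (fun x : qValSubring E => ((x : E) : LaurentSeries k)) hb
      simpa using this
    have hb0 : ((b : E) : LaurentSeries k) ≠ 0 := by
      intro h
      rw [h, mul_zero] at hb'
      exact zero_ne_one hb'
    have h := HahnSeries.order_mul ha0 hb0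
    rw [hb', HahnSeries.order_one] at h
    have h1 : 0 ≤ ((a : E) : LaurentSeries k).order := a.2
    have h2 : 0 ≤ ((b : E) : LaurentSeries k).order := b.2
    omega
  · intro h0
    have hinv : (a : E)⁻¹ ∈ qValSubring E := by
      rw [mem_qValSubring]
      have : (((a : E)⁻¹ : E) : LaurentSeries k) = ((a : E) : LaurentSeries k)⁻¹ := rfl
      rw [this, order_inv' _ ha0, h0]
      simp
    refine IsUnit.of_mul_eq_one ⟨(a : E)⁻¹, hinv⟩ ?_
    apply Subtype.ext
    have haE : (a : E) ≠ 0 := fun h => ha (Subtype.ext h)
    simp [haE]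

/-- If `E` contains an element of order `1`, the `q`-adic valuation ring of `E` is a DVR. -/
theorem qValSubring_isDVR (t : E) (ht : (t : LaurentSeries k).order = 1) :
    IsDiscreteValuationRing (qValSubring E) := by
  have htmem : t ∈ qValSubring E := by rw [mem_qValSubring, ht]; exact zero_le_one
  have ht0 : (t : LaurentSeries k) ≠ 0 := by
    intro h
    rw [h, HahnSeries.order_zero] at ht
    exact zero_ne_one ht
  set T : qValSubring E := ⟨t, htmem⟩ with hT
  have hT0 : T ≠ 0 := by
    intro h
    apply ht0
    exact congrArg (fun x : qValSubring E => ((x : E) : LaurentSeries k)) h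
  have hordpow : ∀ n : ℕ, ((t : LaurentSeries k) ^ n).order = n := by
    intro n
    induction n with
    | zero => simp
    | succ n ih =>
      rw [pow_succ, HahnSeries.order_mul (pow_ne_zero n ht0) ht0, ih, ht]
      push_cast
      ring
  -- factorization
  have hfac : ∀ x : qValSubring E, x ≠ 0 → ∃ n : ℕ, Associated (T ^ n) x := by
    intro x hx
    have hx0 : ((x : E) : LaurentSeries k) ≠ 0 := fun h => hx (Subtype.ext (Subtype.ext h))
    have hxo : 0 ≤ ((x : E) : LaurentSeries k).order := x.2
    obtain ⟨n, hn⟩ := Int.eq_ofNat_of_zero_le hxo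
    refine ⟨n, ?_⟩
    -- u = x / t^n
    have hxE : (x : E) ≠ 0 := fun h => hx (Subtype.ext h)
    have htE : t ≠ 0 := fun h => ht0 (by rw [h]; rfl)
    have hucoe : (((x : E) * (t ^ n)⁻¹ : E) : LaurentSeries k)
        = ((x : E) : LaurentSeries k) * ((t : LaurentSeries k) ^ n)⁻¹ := rfl
    have huord : (((x : E) * (t ^ n)⁻¹ : E) : LaurentSeries k).order = 0 := by
      rw [hucoe, HahnSeries.order_mul hx0 (inv_ne_zero (pow_ne_zero n ht0)),
        order_inv' _ (pow_ne_zero n ht0), hordpow, hn]
      simp
    have humem : (x : E) * (t ^ n)⁻¹ ∈ qValSubring E := by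
      rw [mem_qValSubring, huord]
    set u : qValSubring E := ⟨(x : E) * (t ^ n)⁻¹, humem⟩ with hu
    have hu0 : u ≠ 0 := by
      intro h
      have h' := congrArg (fun y : qValSubring E => (y : E)) h
      simp only [hu, ZeroMemClass.coe_zero] at h'
      exact (mul_ne_zero hxE (inv_ne_zero (pow_ne_zero n htE))) h'
    have huu : IsUnit u := (isUnit_qValSubring_iff u hu0).mpr huord
    refine ⟨huu.unit, ?_⟩
    apply Subtype.ext
    simp only [IsUnit.unit_spec, hu, hT, MulMemClass.coe_mul, SubmonoidClass.coe_pow]
    field_simp
  have hirr : Irreducible T := by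
    constructor
    · intro hu
      rw [isUnit_qValSubring_iff T hT0] at hu
      simp only [hT] at hu
      rw [ht] at hu
      exact one_ne_zero hu
    · intro a b hab
      have ha0 : a ≠ 0 := by
        rintro rfl
        rw [zero_mul] at hab
        exact hT0 hab
      have hb0 : b ≠ 0 := by
        rintro rfl
        rw [mul_zero] at hab
        exact hT0 hab
      have ha0' : ((a : E) : LaurentSeries k) ≠ 0 := fun h => ha0 (Subtype.ext (Subtype.ext h))
      have hb0' : ((b : E) : LaurentSeries k) ≠ 0 := fun h => hb0 (Subtype.ext (Subtype.ext h))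
      have h1 : (t : LaurentSeries k) = ((a : E) : LaurentSeries k) * ((b : E) : LaurentSeries k) :=
        congrArg (fun y : qValSubring E => ((y : E) : LaurentSeries k)) hab
      have h2 := HahnSeries.order_mul ha0' hb0'
      rw [← h1, ht] at h2
      have h3 : 0 ≤ ((a : E) : LaurentSeries k).order := a.2
      have h4 : 0 ≤ ((b : E) : LaurentSeries k).order := b.2
      rw [isUnit_qValSubring_iff a ha0, isUnit_qValSubring_iff b hb0]
      omega
  exact IsDiscreteValuationRing.ofHasUnitMulPowIrreducibleFactorization
    ⟨T, hirr, fun {x} hx => hfac x hx⟩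

/-- The `q`-adic place. -/
noncomputable def qPlace (t : E) (ht : (t : LaurentSeries k).order = 1) : Place k E where
  toValuationSubring := qValSubring E
  algebraMap_mem' := by
    intro a
    rw [mem_qValSubring]
    have : ((algebraMap k E a : E) : LaurentSeries k) = algebraMap k (LaurentSeries k) a := rfl
    rw [this, order_algebraMap']
  ne_top' := by
    intro h
    have hmem : t⁻¹ ∈ qValSubring E := by rw [h]; exact ValuationSubring.mem_top _
    rw [mem_qValSubring] at hmem
    have ht0 : (t : LaurentSeries k) ≠ 0 := by
      intro h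
      rw [h, HahnSeries.order_zero] at ht
      exact zero_ne_one ht
    have : ((t⁻¹ : E) : LaurentSeries k) = (t : LaurentSeries k)⁻¹ := rfl
    rw [this, order_inv' _ ht0, ht] at hmem
    omega
  isPrincipalIdealRing' := by
    have := qValSubring_isDVR t ht
    infer_instance

theorem qPlace_ord_pos (t : E) (ht : (t : LaurentSeries k).order = 1) (f : E)
    (hf : 0 < (f : LaurentSeries k).order) : 0 < (qPlace t ht).ord f := by
  have hf0 : (f : LaurentSeries k) ≠ 0 := by
    intro h
    rw [h, HahnSeries.order_zero] at hf
    exact lt_irrefl _ hf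
  have hmem : f ∈ (qPlace t ht).toValuationSubring := by
    show f ∈ qValSubring E
    rw [mem_qValSubring]
    exact hf.le
  set a : (qPlace t ht).toValuationSubring := ⟨f, hmem⟩ with ha
  have ha0 : a ≠ 0 := by
    intro h
    apply hf0
    exact congrArg (fun y : (qPlace t ht).toValuationSubring => ((y : E) : LaurentSeries k)) h
  have := (S24.mem_maximalIdeal_iff_ord_pos (qPlace t ht) a ha0).mp (by
    rw [IsLocalRing.mem_maximalIdeal, mem_nonunits_iff]
    intro hu
    have h2 := (isUnit_qValSubring_iff (E := E) a ha0).mp hu
    simp only [ha] at h2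
    omega)
  exact this

end Fermat.Agent.S18
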