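import Mathlib
import Fermat.Prelude.Def_ModularCurve_ReductionModL
import Fermat.Prelude.Def_EllipticCurve_FrobeniusTrace
import Fermat.Agent.S24.DegPrincipal
import Fermat.Agent.S24.DegreeBound
import Fermat.Agent.S18.QPlace
import Fermat.Agent.S18.Abstract

/-!
# S18 glue, part 2: S18 follows from "Claim K"
-/

set_option autoImplicit false
set_option linter.unusedSectionVars false
set_option linter.style.haveILetI false

noncomputable section

namespace Fermat.Agent.S18

open AlgebraicCurve ModularCurve HahnSeries IntermediateField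

/-- `ℚ̄`. -/
abbrev Qb : Type := AlgebraicClosure ℚ

/-- **Claim K** in the shape used by the glue: a quotient of two `A`-integral `q`-series lying in
the function field of `X₀(N)`, with the same nonzero reduction, whose divisor is divisible by `m`
(`ℓ ∤ m`), is an `m`-th power in the function field. -/
def Stmt_ClaimK : Prop :=
  ∀ (N : ℕ) [NeZero N] (ℓ : ℕ) [Fact ℓ.Prime], ¬ ℓ ∣ N →
    ∀ A : ValuationSubring Qb, A.LiesOverPrime ℓ → ∀ m : ℕ, ¬ ℓ ∣ m →
    ∀ (y₁ y₂ : LaurentSeries A)
      (h₁ : coeffMap A.subtype y₁ ∈ modularFunctionFieldBar N)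
      (h₂ : coeffMap A.subtype y₂ ∈ modularFunctionFieldBar N),
      coeffMap (IsLocalRing.residue A) y₁ = coeffMap (IsLocalRing.residue A) y₂ →
      coeffMap (IsLocalRing.residue A) y₂ ≠ 0 →
      (∀ P : Place Qb (modularFunctionFieldBar N),
        (m : ℤ) ∣ P.ord ((⟨_, h₁⟩ : modularFunctionFieldBar N) / ⟨_, h₂⟩)) →
      ∃ g : modularFunctionFieldBar N, g ^ m = (⟨_, h₁⟩ : modularFunctionFieldBar N) / ⟨_, h₂⟩



section Lift

variable (N : ℕ) [NeZero N] (A : ValuationSubring Qb)
variable {k : Type*} [Field k] (π : A →+* k) (hπ : Function.Surjective π)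

/-- The `A`-integral series whose image over `ℚ̄` lies in the function field. -/
def intSubring : Subring (LaurentSeries A) :=
  (modularFunctionFieldBar N).toSubring.comap (coeffMap A.subtype)

theorem mem_intSubring {y : LaurentSeries A} :
    y ∈ intSubring N A ↔ coeffMap A.subtype y ∈ modularFunctionFieldBar N := Iff.rfl

theorem coeffMap_subtype_injective : Function.Injective (coeffMap A.subtype) := by
  intro x y h
  ext n
  have := congrArg (fun z : LaurentSeries Qb => z.coeff n) h
  simp only [coeffMap_coeff] at this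
  exact this

theorem jd_mem_intSubring {d : ℕ} [NeZero d] (hd : d ∣ N) :
    qExpand A d (jqModC A) ∈ intSubring N A := by
  rw [mem_intSubring, coeffMap_qExpand, coeffMap_jqModC]
  have h := coeffEmb_mem_laurentBaseChange Qb (jqd_mem_full N hd)
  rw [coeffEmb, coeffMap_qExpand, ← jqModC_rat, coeffMap_jqModC] at h
  exact h

theorem const_mem_intSubring (c : A) : HahnSeries.single (0 : ℤ) c ∈ intSubring N A := by
  rw [mem_intSubring, coeffMap_single, ← algebraMap_laurentSeries_eq_single]
  exact (modularFunctionFieldBar N).algebraMap_mem _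

include hπ in
theorem adjoin_le_red (x : LaurentSeries k)
    (hx : x ∈ Algebra.adjoin k (divisorExpansionsC k N)) :
    ∃ y ∈ intSubring N A, coeffMap π y = x := by
  induction hx using Algebra.adjoin_induction with
  | mem x hx =>
    obtain ⟨d, hne, hd, rfl⟩ := hx
    haveI := hne
    refine ⟨qExpand A d (jqModC A), jd_mem_intSubring N A hd, ?_⟩
    rw [coeffMap_qExpand, coeffMap_jqModC]
  | algebraMap c =>
    obtain ⟨c', rfl⟩ := hπ c
    refine ⟨HahnSeries.single (0 : ℤ) c', const_mem_intSubring N A c', ?_⟩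
    rw [coeffMap_single, ← algebraMap_laurentSeries_eq_single]
  | add x y _ _ hx hy =>
    obtain ⟨a, ha, rfl⟩ := hx
    obtain ⟨b, hb, rfl⟩ := hy
    exact ⟨a + b, add_mem ha hb, map_add _ _ _⟩
  | mul x y _ _ hx hy =>
    obtain ⟨a, ha, rfl⟩ := hx
    obtain ⟨b, hb, rfl⟩ := hy
    exact ⟨a * b, mul_mem ha hb, map_mul _ _ _⟩

include hπ in
/-- Every element of the function field in characteristic `ℓ` is a quotient of reductions of
integral series. -/
theorem exists_lift_div (w : LaurentSeries k)
    (hw : w ∈ modularFunctionFieldFullC k N) :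
    ∃ a ∈ intSubring N A, ∃ b ∈ intSubring N A,
      coeffMap π a ∈ modularFunctionFieldFullC k N ∧
      coeffMap π b ∈ modularFunctionFieldFullC k N ∧
      w = coeffMap π a / coeffMap π b := by
  obtain ⟨r, hr, s, hs, rfl⟩ := IntermediateField.mem_adjoin_iff_div.mp hw
  have hr' := IntermediateField.algebra_adjoin_le_adjoin _ _ hr
  have hs' := IntermediateField.algebra_adjoin_le_adjoin _ _ hs
  obtain ⟨a, ha, rfl⟩ := adjoin_le_red N A π hπ _ hr
  obtain ⟨b, hb, rfl⟩ := adjoin_le_red N A π hπ _ hs
  exact ⟨a, ha, b, hb, hr', hs', rfl⟩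

end Lift

section Main

variable {N : ℕ} [NeZero N] {A : ValuationSubring Qb}
variable {k : Type*} [Field k] (π : A →+* k)

/-- `f` is the image of an `A`-integral series whose reduction is `fb ≠ 0`. -/
def IsInt (f : modularFunctionFieldBar N) (fb : modularFunctionFieldFullC k N) : Prop :=
  fb ≠ 0 ∧ ∃ y : LaurentSeries A, coeffMap A.subtype y = (f : LaurentSeries Qb) ∧
    coeffMap π y = (fb : LaurentSeries k)

variable {π}

theorem IsInt.ne_zero {f : modularFunctionFieldBar N}
    {fb : modularFunctionFieldFullC k N} (h : IsInt π f fb) : f ≠ 0 := by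
  rintro rfl
  obtain ⟨h0, y, hy, hyb⟩ := h
  have hy0 : y = 0 := coeffMap_subtype_injective A (by rw [hy, map_zero]; rfl)
  apply h0
  apply Subtype.ext
  rw [← hyb, hy0, map_zero]
  rfl

theorem IsInt.one : IsInt π (1 : modularFunctionFieldBar N) 1 :=
  ⟨one_ne_zero, 1, by rw [map_one]; rfl, by rw [map_one]; rfl⟩

theorem IsInt.mul {f g : modularFunctionFieldBar N}
    {fb gb : modularFunctionFieldFullC k N}
    (h1 : IsInt π f fb) (h2 : IsInt π g gb) : IsInt π (f * g) (fb * gb) := by
  obtain ⟨h0, y, hy, hyb⟩ := h1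
  obtain ⟨h0', y', hy', hyb'⟩ := h2
  exact ⟨mul_ne_zero h0 h0', y * y', by rw [map_mul, hy, hy']; rfl, by rw [map_mul, hyb, hyb']; rfl⟩

theorem IsInt.red {r : Place Qb (modularFunctionFieldBar N) →
      Place k (modularFunctionFieldFullC k N)}
    (hr : IsPlaceReductionAlong A π N r)
    {f : modularFunctionFieldBar N}
    {fb : modularFunctionFieldFullC k N} (h : IsInt π f fb) :
    Red r f fb := by
  refine ⟨h.ne_zero, h.1, fun D hD Q => ?_⟩
  obtain ⟨h0, y, hy, hyb⟩ := h
  have hmem : coeffMap A.subtype y ∈ modularFunctionFieldBar N := hy ▸ f.2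
  have hmemk : coeffMap π y ∈ modularFunctionFieldFullC k N := hyb ▸ fb.2
  have e1 : (⟨_, hmem⟩ : modularFunctionFieldBar N) = f := Subtype.ext hy
  have e2 : (⟨_, hmemk⟩ : modularFunctionFieldFullC k N) = fb := Subtype.ext hyb
  have hne : coeffMap π y ≠ 0 := by
    intro h
    apply h0
    apply Subtype.ext
    rw [← hyb, h]
    rfl
  have := hr.2 y hmem hmemk hne D (fun P => by rw [hD P, e1]) Q
  rw [this, e2]

theorem IsInt.sub (hπ : Function.Surjective π) {f g : modularFunctionFieldBar N}
    {fb gb : modularFunctionFieldFullC k N}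
    (h1 : IsInt π f fb) (h2 : IsInt π g gb) (cb : k) :
    ∃ c : Qb,
      (cb ≠ 0 → IsInt π (algebraMap Qb (modularFunctionFieldBar N) c * g)
        (algebraMap k (modularFunctionFieldFullC k N) cb * gb)) ∧
      (fb - algebraMap k (modularFunctionFieldFullC k N) cb * gb ≠ 0 →
        IsInt π (f - algebraMap Qb (modularFunctionFieldBar N) c * g)
          (fb - algebraMap k (modularFunctionFieldFullC k N) cb * gb)) := by
  obtain ⟨c, rfl⟩ := hπ cb
  obtain ⟨h0, y, hy, hyb⟩ := h1
  obtain ⟨h0', y', hy', hyb'⟩ := h2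
  have e1 : coeffMap A.subtype (HahnSeries.single (0 : ℤ) c)
      = algebraMap Qb (LaurentSeries Qb) (c : Qb) := by
    rw [coeffMap_single, ← algebraMap_laurentSeries_eq_single]; rfl
  have e2 : coeffMap π (HahnSeries.single (0 : ℤ) c)
      = algebraMap k (LaurentSeries k) (π c) := by
    rw [coeffMap_single, ← algebraMap_laurentSeries_eq_single]
  refine ⟨(c : Qb), fun hc => ⟨mul_ne_zero ?_ h0', HahnSeries.single (0 : ℤ) c * y', ?_, ?_⟩,
    fun hne => ⟨hne, y - HahnSeries.single (0 : ℤ) c * y', ?_, ?_⟩⟩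
  · simpa using hc
  · rw [map_mul, hy', e1]; rfl
  · rw [map_mul, hyb', e2]; rfl
  · rw [map_sub, map_mul, hy, hy', e1]; rfl
  · rw [map_sub, map_mul, hyb, hyb', e2]; rfl

theorem IsInt.lift (hπ : Function.Surjective π) (w : modularFunctionFieldFullC k N) (hw : w ≠ 0) :
    ∃ (a : modularFunctionFieldBar N) (ab : modularFunctionFieldFullC k N)
      (b : modularFunctionFieldBar N) (bb : modularFunctionFieldFullC k N),
      IsInt π a ab ∧ IsInt π b bb ∧ w = ab / bb := by
  obtain ⟨a, ha, b, hb, hak, hbk, hwab⟩ := exists_lift_div N A π hπ w w.2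
  have hw' : w = (⟨_, hak⟩ : modularFunctionFieldFullC k N) / ⟨_, hbk⟩ := Subtype.ext hwab
  have ha0 : (⟨_, hak⟩ : modularFunctionFieldFullC k N) ≠ 0 := by
    intro h
    rw [h, zero_div] at hw'
    exact hw hw'
  have hb0 : (⟨_, hbk⟩ : modularFunctionFieldFullC k N) ≠ 0 := by
    intro h
    rw [h, div_zero] at hw'
    exact hw hw'
  exact ⟨⟨_, ha⟩, ⟨_, hak⟩, ⟨_, hb⟩, ⟨_, hbk⟩, ⟨ha0, a, rfl, rfl⟩, ⟨hb0, b, rfl, rfl⟩, hw'⟩

theorem IsInt.gen (hgen : PrincipalGeneratedByIntegral A π N) :
    Divisor.principal (K := Qb) (F := modularFunctionFieldBar N) ≤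
      AddSubgroup.closure {D | ∃ (f : modularFunctionFieldBar N)
        (fb : modularFunctionFieldFullC k N), IsInt π f fb ∧ ∀ P, D P = P.ord f} := by
  refine hgen.trans (AddSubgroup.closure_mono ?_)
  rintro D ⟨y, hy, hyk, hne, hD⟩
  refine ⟨⟨_, hy⟩, ⟨_, hyk⟩, ⟨?_, y, rfl, rfl⟩, hD⟩
  intro h
  exact hne (congrArg Subtype.val h)

/-! ### the `q`-adic place of the function field in characteristic `ℓ` -/

theorem coeff_order_ne_zero' {x : LaurentSeries k} (hx : x ≠ 0) : x.coeff x.order ≠ 0 :=
  fun h => hx (HahnSeries.coeff_order_eq_zero.mp h)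

theorem order_jqModC : (jqModC k).order = -1 := by
  have hne : jqModC k ≠ 0 := jqModC_ne_zero_of_nontrivial k
  apply le_antisymm
  · apply HahnSeries.order_le_of_coeff_ne_zero
    rw [coeff_jqModC_neg_one]
    exact one_ne_zero
  · by_contra hlt
    have h1 := coeff_order_ne_zero' hne
    exact h1 (coeff_jqModC_of_lt k (not_le.mp hlt))

variable (k N) in
/-- `1/j`, a uniformiser at the cusp `∞`. -/
def tInf : modularFunctionFieldFullC k N := (⟨jqModC k, jqModC_mem_full k N⟩)⁻¹

theorem order_tInf : ((tInf N k : modularFunctionFieldFullC k N) : LaurentSeries k).order = 1 := by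
  have : ((tInf N k : modularFunctionFieldFullC k N) : LaurentSeries k) = (jqModC k)⁻¹ := rfl
  rw [this, order_inv' _ (jqModC_ne_zero_of_nontrivial k), order_jqModC]
  rfl

variable (k N) in
/-- the cusp `∞` of the special fibre. -/
def PInf : Place k (modularFunctionFieldFullC k N) := qPlace (tInf N k) order_tInf

theorem PInf_spec (u : modularFunctionFieldFullC k N) (hu : u ≠ 0) (h0 : (PInf N k).ord u = 0) :
    ∃ cb : k, cb ≠ 0 ∧ (u = algebraMap k (modularFunctionFieldFullC k N) cb ∨
      0 < (PInf N k).ord (u - algebraMap k (modularFunctionFieldFullC k N) cb)) := by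
  have hu' : (u : LaurentSeries k) ≠ 0 := fun h => hu (Subtype.ext h)
  have hord : (u : LaurentSeries k).order = 0 := by
    rcases lt_trichotomy (u : LaurentSeries k).order 0 with h | h | h
    · exfalso
      have h1 : 0 < ((u⁻¹ : modularFunctionFieldFullC k N) : LaurentSeries k).order := by
        have : ((u⁻¹ : modularFunctionFieldFullC k N) : LaurentSeries k)
            = (u : LaurentSeries k)⁻¹ := rfl
        rw [this, order_inv' _ hu']
        omega
      have h2 := qPlace_ord_pos (tInf N k) order_tInf u⁻¹ h1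
      have h3 : (PInf N k).ord u⁻¹ = 0 := by rw [Place.ord_inv, h0]; rfl
      exact absurd h2 (by rw [show qPlace (tInf N k) order_tInf = PInf N k from rfl, h3]; simp)
    · exact h
    · exfalso
      have h2 := qPlace_ord_pos (tInf N k) order_tInf u h
      exact absurd h2 (by rw [show qPlace (tInf N k) order_tInf = PInf N k from rfl, h0]; simp)
  refine ⟨(u : LaurentSeries k).coeff 0, ?_, ?_⟩
  · have := coeff_order_ne_zero' hu'
    rwa [hord] at this
  · by_cases hv : u = algebraMap k (modularFunctionFieldFullC k N) ((u : LaurentSeries k).coeff 0)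
    · exact Or.inl hv
    · right
      apply qPlace_ord_pos
      set v := u - algebraMap k (modularFunctionFieldFullC k N) ((u : LaurentSeries k).coeff 0)
        with hvdef
      have hv0 : v ≠ 0 := sub_ne_zero.mpr hv
      have hv0' : (v : LaurentSeries k) ≠ 0 := fun h => hv0 (Subtype.ext h)
      have hcoe : (v : LaurentSeries k) = (u : LaurentSeries k)
          - HahnSeries.single (0 : ℤ) ((u : LaurentSeries k).coeff 0) := by
        rw [← algebraMap_laurentSeries_eq_single]
        rfl
      by_contra hle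
      have hle' : (v : LaurentSeries k).order ≤ 0 := not_lt.mp hle
      apply coeff_order_ne_zero' hv0'
      rw [hcoe] at hle' ⊢
      set n := ((u : LaurentSeries k)
          - HahnSeries.single (0 : ℤ) ((u : LaurentSeries k).coeff 0)).order with hn
      rw [HahnSeries.coeff_sub]
      rcases hle'.lt_or_eq with h | h
      · rw [HahnSeries.coeff_eq_zero_of_lt_order (by rw [hord]; exact h),
          HahnSeries.coeff_single_of_ne h.ne, sub_zero]
      · rw [h, HahnSeries.coeff_single_same, sub_self]

theorem main_along (hπ : Function.Surjective π)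
    (r : Place Qb (modularFunctionFieldBar N) → Place k (modularFunctionFieldFullC k N))
    (hr : IsPlaceReductionAlong A π N r) (hgen : PrincipalGeneratedByIntegral A π N)
    (m : ℕ) (hm : m ≠ 0)
    (hK : ∀ (f g : modularFunctionFieldBar N) (fb : modularFunctionFieldFullC k N),
      IsInt π f fb → IsInt π g fb →
      (∀ P : Place Qb (modularFunctionFieldBar N), (m : ℤ) ∣ P.ord (f / g)) →
      ∃ h : modularFunctionFieldBar N, h ^ m = f / g)
    (D : Divisor Qb (modularFunctionFieldBar N))
    (hmD : m • D ∈ Divisor.principal (K := Qb) (F := modularFunctionFieldBar N))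
    (hrD : Finsupp.mapDomain r D ∈
      Divisor.principal (K := k) (F := modularFunctionFieldFullC k N)) :
    D ∈ Divisor.principal (K := Qb) (F := modularFunctionFieldBar N) := by
  haveI : FiniteDimensional Qb⟮S24.jF N⟯ (modularFunctionFieldBar N) := (S24.finrank_FF_le N).1
  exact abstract_main (S24.jF N) (S24.DegBd.transcendental_jF N) r hr.1 (IsInt π)
    (fun _ _ h => h.red hr) IsInt.one (fun _ _ _ _ => IsInt.mul)
    (fun _ _ _ _ h1 h2 cb => IsInt.sub hπ h1 h2 cb) (IsInt.lift hπ) (IsInt.gen hgen)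
    (PInf N k) PInf_spec m hm hK D hmD hrD

end Main

set_option synthInstance.maxHeartbeats 400000 in
/-- **S18 follows from Claim K.** -/
theorem result_of (hK : Stmt_ClaimK) (N : ℕ) [NeZero N] {ℓ : ℕ}
    [Fact ℓ.Prime] (hℓN : ¬ ℓ ∣ N) (A : ValuationSubring (AlgebraicClosure ℚ))
    (hA : A.LiesOverPrime ℓ)
    (h : ModularCurve.ReductionInputsModL A N) (m : ℕ) (hm : ¬ ℓ ∣ m) (z : ModularCurve.JZero N)
    (hmz : m • z = 0) (hz : ModularCurve.reductionModL A N z = 0) :
    z = 0 := by
  obtain ⟨D, rfl⟩ := Pic0.mk_surjective z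
  have hr := isPlaceReductionModL_placeReductionModL h
  have hgen : PrincipalGeneratedByIntegral A (IsLocalRing.residue A) N := h.choose_spec.2
  have hm0 : m ≠ 0 := by
    rintro rfl
    exact hm (dvd_zero ℓ)
  rw [reductionModL_mk h D] at hz
  have hrD : Finsupp.mapDomain (placeReductionModL h) (D : Divisor Qb (modularFunctionFieldBar N))
      ∈ Divisor.principal (K := IsLocalRing.ResidueField A)
        (F := modularFunctionFieldFullC (IsLocalRing.ResidueField A) N) := by
    have h1 := (QuotientAddGroup.eq_zero_iff _).mp hz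
    rw [AddSubgroup.mem_addSubgroupOf, coe_reductionDegZeroAlong] at h1
    exact h1
  have hmD : m • (D : Divisor Qb (modularFunctionFieldBar N))
      ∈ Divisor.principal (K := Qb) (F := modularFunctionFieldBar N) := by
    have h1 : Pic0.mk (m • D) = 0 := hmz
    have h2 := (QuotientAddGroup.eq_zero_iff _).mp h1
    rw [AddSubgroup.mem_addSubgroupOf] at h2
    exact h2
  have key := main_along (π := IsLocalRing.residue A) IsLocalRing.residue_surjective
    (placeReductionModL h) hr hgen m hm0 (by
      intro f g fb hf hg hdiv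
      obtain ⟨_, y₁, hy₁, hyb₁⟩ := hf
      obtain ⟨hfb, y₂, hy₂, hyb₂⟩ := hg
      have hm1 : coeffMap A.subtype y₁ ∈ modularFunctionFieldBar N := hy₁ ▸ f.2
      have hm2 : coeffMap A.subtype y₂ ∈ modularFunctionFieldBar N := hy₂ ▸ g.2
      have e1 : (⟨_, hm1⟩ : modularFunctionFieldBar N) = f := Subtype.ext hy₁
      have e2 : (⟨_, hm2⟩ : modularFunctionFieldBar N) = g := Subtype.ext hy₂
      have := hK N ℓ hℓN A hA m hm y₁ y₂ hm1 hm2 (by rw [hyb₁, hyb₂]) (by
        rw [hyb₂]
        intro h0
        exact hfb (Subtype.ext h0)) (by rw [e1, e2]; exact hdiv)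
      rwa [e1, e2] at this) D hmD hrD
  apply (QuotientAddGroup.eq_zero_iff _).mpr
  rw [AddSubgroup.mem_addSubgroupOf]
  exact key

end Fermat.Agent.S18

end
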