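import Fermat.Agent.S24.FundId
import Fermat.Agent.S24.DegPrincipalCore

/-!
# Functions without poles are constant (any characteristic)

`K` algebraically closed, `F/K` a function field in one variable.  An element of `F` which is
regular at all places is constant.  The separating variable is provided by Mathlib's
`exists_isTranscendenceBasis_and_isSeparable_of_perfectField`.
-/

set_option autoImplicit false

namespace Fermat.Agent.S18G

open AlgebraicCurve IntermediateField IsDedekindDomain Fermat.Agent.S24
open scoped IntermediateField.algebraAdjoinAdjoin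

variable {K F : Type*} [Field K] [Field F] [Algebra K F]

theorem intRing_isDedekindDomain_of_sep {x : F} (hx : Transcendental K x)
    [FiniteDimensional K⟮x⟯ F] [Algebra.IsSeparable K⟮x⟯ F] : IsDedekindDomain (intRing K x) := by
  have := polyRing_isPrincipalIdealRing hx
  exact integralClosure.isDedekindDomain (polyRing K x) K⟮x⟯ F

/-- regular at all places `⟹` integral over `K[x]`. -/
theorem isIntegral_polyRing_of_ord_nonneg {x : F} (hx : Transcendental K x)
    [FiniteDimensional K⟮x⟯ F] [Algebra.IsSeparable K⟮x⟯ F] (f : F) (hf : f ≠ 0)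
    (h : ∀ v : Place K F, 0 ≤ v.ord f) : IsIntegral (polyRing K x) f := by
  have := intRing_isDedekindDomain_of_sep hx
  have := intRing_isFractionRing (K := K) x
  have h1 : ∀ P : HeightOneSpectrum (intRing K x), P.valuation F f ≤ 1 := fun P =>
    (ord_ofHeightOneSpectrum_nonneg_iff (K := K) P f hf).1 (h _)
  obtain ⟨b, hb⟩ := HeightOneSpectrum.mem_integers_of_valuation_le_one F f h1
  rw [← hb]
  exact b.2

/-- integral over `K[x]`, `x ∈ V` `⟹` in `V`. -/
theorem mem_valuationSubring_of_isIntegral_polyRing {x : F} (V : ValuationSubring F)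
    (hK : ∀ c : K, algebraMap K F c ∈ V) (hx : x ∈ V) {f : F}
    (hf : IsIntegral (polyRing K x) f) : f ∈ V := by
  let S : Subalgebra K F := { V.toSubring with algebraMap_mem' := hK }
  have hle : polyRing K x ≤ S := Algebra.adjoin_le (by
    intro y hy
    rw [Set.mem_singleton_iff] at hy
    rw [hy]; exact hx)
  let φ : polyRing K x →+* V :=
    (algebraMap (polyRing K x) F).codRestrict V.toSubring (fun a => hle a.2)
  have h1 : IsIntegral V f := IsIntegral.map_of_comp_eq φ (RingHom.id F) rfl hf
  obtain ⟨y, hy⟩ := (IsIntegrallyClosed.isIntegral_iff (R := V) (K := F)).mp h1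
  rw [← hy]
  exact y.2

/-- An element integral over `K[x]` and over `K[x⁻¹]` is constant (`K` algebraically closed). -/
theorem const_of_isIntegral_of_isIntegral [IsAlgClosed K] {x f : F}
    (h1 : IsIntegral (polyRing K x) f) (h2 : IsIntegral (polyRing K x⁻¹) f) :
    ∃ c : K, f = algebraMap K F c := by
  by_contra hcon
  let R : Subring F := (algebraMap K F).range
  have hR : IsIntegrallyClosedIn R F := by
    rw [Subring.isIntegrallyClosedIn_iff]
    intro y hy
    have hy' : IsIntegral K y := by
      obtain ⟨p, hp, hpy⟩ := hy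
      obtain ⟨P, hPmap, -, hPmonic⟩ := Polynomial.lifts_and_degree_eq_and_monic
        ((Polynomial.mem_lifts p).2 (Polynomial.map_surjective (algebraMap K F).rangeRestrict
          (algebraMap K F).rangeRestrict_surjective p)) hp
      refine ⟨P, hPmonic, ?_⟩
      rw [← hPmap, Polynomial.eval₂_map] at hpy
      exact hpy
    obtain ⟨c, hc⟩ := minpoly.mem_range_of_degree_eq_one K y
      (IsAlgClosed.degree_eq_one_of_irreducible K (minpoly.irreducible hy'))
    exact ⟨c, hc⟩
  have hfR : f ∉ R := fun ⟨c, hc⟩ => hcon ⟨c, hc.symm⟩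
  obtain ⟨V, hV, hfV⟩ := Subring.exists_le_valuationSubring_of_isIntegrallyClosedIn hfR
  have hK : ∀ c : K, algebraMap K F c ∈ V := fun c => hV ⟨c, rfl⟩
  rcases V.mem_or_inv_mem x with hx | hx
  · exact hfV (mem_valuationSubring_of_isIntegral_polyRing V hK hx h1)
  · exact hfV (mem_valuationSubring_of_isIntegral_polyRing V hK hx h2)

/-- A separating variable. -/
theorem exists_separating_variable [PerfectField K] (j : F) (hj : Transcendental K j)
    [FiniteDimensional K⟮j⟯ F] :
    ∃ x : F, Transcendental K x ∧ Algebra.IsSeparable K⟮x⟯ F := by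
  have h1 : Algebra.EssFiniteType K K⟮j⟯ :=
    IntermediateField.essFiniteType_iff.2 ⟨{j}, by rw [Finset.coe_singleton]⟩
  have h2 : Algebra.EssFiniteType K F := Algebra.EssFiniteType.comp K K⟮j⟯ F
  obtain ⟨s, hs, hsep⟩ := exists_isTranscendenceBasis_and_isSeparable_of_perfectField K F
  have hjb : IsTranscendenceBasis K (fun _ : Unit => j) := by
    rw [isTranscendenceBasis_iff_algebraicIndependent_isAlgebraic]
    refine ⟨algebraicIndependent_unique_type_iff.2 hj, ?_⟩
    have hr : Set.range (fun _ : Unit => j) = {j} := by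
      ext y; simp [eq_comm]
    rw [hr, ← IntermediateField.isAlgebraic_adjoin_iff_top]
    infer_instance
  have hcard := hs.lift_cardinalMk_eq hjb
  have hcard' : s.card = 1 := by
    simpa using hcard
  obtain ⟨x, rfl⟩ := Finset.card_eq_one.1 hcard'
  refine ⟨x, ?_, ?_⟩
  · have := hs.1
    have h3 := this.transcendental ⟨x, by simp⟩
    exact h3
  · rw [Finset.coe_singleton] at hsep
    exact hsep

/-- **A function without poles is constant.** -/
theorem const_of_ord_nonneg [IsAlgClosed K] (j : F) (hj : Transcendental K j)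
    [FiniteDimensional K⟮j⟯ F] (f : F) (hf : f ≠ 0) (h : ∀ v : Place K F, 0 ≤ v.ord f) :
    ∃ c : K, f = algebraMap K F c := by
  obtain ⟨x, hx, hsep⟩ := exists_separating_variable j hj
  have hfd : FiniteDimensional K⟮x⟯ F := finiteDimensional_adjoin_simple_of_transcendental j hj x hx
  have hx' : Transcendental K x⁻¹ := transcendental_inv_of_transcendental hx
  have hfd' : FiniteDimensional K⟮x⁻¹⟯ F :=
    finiteDimensional_adjoin_simple_of_transcendental j hj x⁻¹ hx'
  have hsep' : Algebra.IsSeparable K⟮x⁻¹⟯ F := by
    rw [adjoin_simple_inv_eq]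
    exact hsep
  exact const_of_isIntegral_of_isIntegral (isIntegral_polyRing_of_ord_nonneg hx f hf h)
    (isIntegral_polyRing_of_ord_nonneg hx' f hf h)

end Fermat.Agent.S18G
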