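import Fermat.Agent.S18.Glue28
import Fermat.Agent.S18.Const
import Fermat.Agent.S28.FN7f
import Fermat.Agent.S28.NewPrime
import Fermat.Agent.S28.BaseCase

/-!
# `StmtConstK`: a function of `F_k` without zeros and poles is constant
-/

set_option autoImplicit false
set_option synthInstance.maxHeartbeats 400000

noncomputable section

open HahnSeries IntermediateField AlgebraicCurve ModularCurve

namespace Fermat.Agent.S18G

section General

variable (k : Type) [Field k] (N : ℕ)

/-- `j` as an element of `k(j(q^d) : d ∣ N)`. -/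
def jK : modularFunctionFieldFullC k N := ⟨jqModC k, jqModC_mem_full k N⟩

theorem transcendental_jK : Transcendental k (jK k N) := by
  intro h
  exact Fermat.Agent.S28.Base.transcendental_j (k := k)
    (h.algHom (modularFunctionFieldFullC k N).val)

theorem jd_one : Fermat.Agent.S28.jd k 1 = jqModC k := by
  rw [Fermat.Agent.S28.jd, Fermat.Agent.S28.Vq_eq, qExpand_one_apply]

theorem map_adjoin_jK :
    (k⟮jK k N⟯).map (modularFunctionFieldFullC k N).val = Fermat.Agent.S28.Ej k 1 := by
  rw [IntermediateField.adjoin_map, Set.image_singleton, Fermat.Agent.S28.Ej, jd_one]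
  rfl

/-- the generators as elements of the field. -/
def gensK : Set (modularFunctionFieldFullC k N) :=
  (modularFunctionFieldFullC k N).val ⁻¹' (divisorExpansionsC k N)

theorem isAlgebraic_of_mem_gensK {x : modularFunctionFieldFullC k N} (hx : x ∈ gensK k N) :
    IsAlgebraic k⟮jK k N⟯ x := by
  obtain ⟨d, hd, hdN, hxd⟩ := hx
  have h1 : IsIntegral (Fermat.Agent.S28.Ej k 1) (Fermat.Agent.S28.jd k d) :=
    Fermat.Agent.S28.NewPrime.isIntegral_jd d (Nat.pos_of_ne_zero (NeZero.ne d))
      (fun r hr _ => Fermat.Agent.S28.FN7.hasModPoly k hr)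
  have h2 : Fermat.Agent.S28.jd k d = (modularFunctionFieldFullC k N).val x := by
    rw [Fermat.Agent.S28.jd, Fermat.Agent.S28.Vq_eq]
    exact hxd.symm
  rw [h2] at h1
  have hmem : ∀ e : k⟮jK k N⟯, (modularFunctionFieldFullC k N).val (e : modularFunctionFieldFullC k N)
      ∈ Fermat.Agent.S28.Ej k 1 := by
    intro e
    rw [← map_adjoin_jK k N]
    exact ⟨e, e.2, rfl⟩
  let f : k⟮jK k N⟯ →+* Fermat.Agent.S28.Ej k 1 :=
    (((modularFunctionFieldFullC k N).val : _ →+* LaurentSeries k).comp
      (algebraMap k⟮jK k N⟯ (modularFunctionFieldFullC k N))).codRestrict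
        (Fermat.Agent.S28.Ej k 1).toSubring hmem
  refine IsAlgebraic.of_ringHom_of_comp_eq f
    ((modularFunctionFieldFullC k N).val : _ →+* LaurentSeries k) h1.isAlgebraic ?_
    (modularFunctionFieldFullC k N).val.injective rfl
  rintro ⟨s, hs⟩
  rw [← map_adjoin_jK k N] at hs
  obtain ⟨e, he, rfl⟩ := hs
  exact ⟨⟨e, he⟩, rfl⟩

theorem finite_gensK [NeZero N] : (gensK k N).Finite := by
  apply Set.Finite.preimage (modularFunctionFieldFullC k N).val.injective.injOn
  have : divisorExpansionsC k N ⊆ (fun d => Fermat.Agent.S28.jd k d) '' (N.divisors : Set ℕ) := by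
    rintro x ⟨d, hd, hdN, rfl⟩
    refine ⟨d, by simpa using ⟨hdN, NeZero.ne N⟩, ?_⟩
    simp only [Fermat.Agent.S28.jd, Fermat.Agent.S28.Vq_eq]
  exact Set.Finite.subset (Set.Finite.image _ (Finset.finite_toSet _)) this

theorem adjoin_gensK_eq_top :
    IntermediateField.adjoin k (gensK k N) = ⊤ := by
  apply IntermediateField.map_injective (modularFunctionFieldFullC k N).val
  rw [IntermediateField.adjoin_map, gensK, Set.image_preimage_eq_of_subset, ← AlgHom.fieldRange_eq_map,
    IntermediateField.fieldRange_val]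
  · rfl
  · intro x hx
    exact ⟨⟨x, subset_adjoin k _ hx⟩, rfl⟩

theorem finiteDimensional_jK [NeZero N] :
    FiniteDimensional k⟮jK k N⟯ (modularFunctionFieldFullC k N) := by
  have h1 : FiniteDimensional k⟮jK k N⟯ (IntermediateField.adjoin k⟮jK k N⟯ (gensK k N)) := by
    have := (finite_gensK k N).to_subtype
    exact IntermediateField.finiteDimensional_adjoin
      (fun x hx => (isAlgebraic_of_mem_gensK k N hx).isIntegral)
  have h2 : IntermediateField.adjoin k⟮jK k N⟯ (gensK k N) = ⊤ := by
    apply IntermediateField.restrictScalars_injective k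
    rw [IntermediateField.restrictScalars_top, eq_top_iff, ← adjoin_gensK_eq_top k N,
      IntermediateField.adjoin_le_iff]
    intro x hx
    exact subset_adjoin k⟮jK k N⟯ _ hx
  rw [h2] at h1
  exact (IntermediateField.topEquiv (F := k⟮jK k N⟯)
    (E := modularFunctionFieldFullC k N)).toLinearEquiv.finiteDimensional

end General

/-- **CONST_k**. -/
theorem stmtConstK (N : ℕ) [NeZero N] (A : ValuationSubring Qb) : StmtConstK N A := by
  intro x hx h
  have := isAlgClosed_kA A
  have := finiteDimensional_jK (kA A) N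
  exact const_of_ord_nonneg (jK (kA A) N) (transcendental_jK (kA A) N) x hx (fun Q => (h Q).ge)

end Fermat.Agent.S18G
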